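import Mathlib
import Fermat.Agent.LT.T6.H189.ArchIntCut
import Fermat.Agent.LT.T2.H555.CartanInf

/-!
# Row LT, tower T6, leaf T6.23.08 `CartanCC` (registry 1470, helper514)

OFF-MAIN.  `cartanCC514 : H189.CartanCC` VERBATIM (ArchIntCut.lean db591abe, ArchIntSpec.lean
4ac6c090 of helper189@45580d1ec), unconditional.  Imports Mathlib, the two Spec files and the
asset `T2/H555/CartanInf.lean` (48c6cc47, helper555@8eae4017c: `svd555`), byte-identical copies.

Proof: singular values `a ≥ b > 0` of `g` (`svd555` + a swap), `|det g| = a b`,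
`Re tr(g* g) = a² + b²`, `ρ(g) = cosh (log (a/b))`, `e^r e^{± d/2} = a, b` for
`r = log (a b) / 2`, `d = log (a / b)`.
-/

set_option autoImplicit false

open Matrix

noncomputable section

namespace Fermat.Agent.LT.T6.H514

open Fermat.Agent.LT.T6.H189 Fermat.Agent.LT.T2.H555

/-- The real diagonal matrix `diag(a, b)` over `ℂ`. -/
def dg514 (a b : ℝ) : Matrix (Fin 2) (Fin 2) ℂ := !![(a : ℂ), 0; 0, (b : ℂ)]

/-- The swap matrix. -/
def sw514 : Matrix (Fin 2) (Fin 2) ℂ := !![0, 1; 1, 0]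

theorem sw_mul_swH514 : sw514 * sw514ᴴ = 1 := by
  ext i j
  fin_cases i <;> fin_cases j <;>
    simp [sw514, Matrix.mul_apply, Fin.sum_univ_two, Matrix.conjTranspose_apply]

theorem sw_dg_sw514 (a b : ℝ) : sw514 * dg514 b a * sw514 = dg514 a b := by
  ext i j
  fin_cases i <;> fin_cases j <;>
    simp [sw514, dg514, Matrix.mul_apply, Fin.sum_univ_two]

theorem unitary_mul514 {k k' : Matrix (Fin 2) (Fin 2) ℂ} (h : k * kᴴ = 1) (h' : k' * k'ᴴ = 1) :
    (k * k') * (k * k')ᴴ = 1 := by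
  rw [Matrix.conjTranspose_mul]
  calc k * k' * (k'ᴴ * kᴴ) = k * (k' * k'ᴴ) * kᴴ := by simp only [Matrix.mul_assoc]
    _ = 1 := by rw [h', Matrix.mul_one, h]

theorem diagonal_eq_dg514 (d : Fin 2 → ℝ) :
    Matrix.diagonal (fun i => ((d i : ℝ) : ℂ)) = dg514 (d 0) (d 1) := by
  ext i j
  fin_cases i <;> fin_cases j <;> simp [dg514]

/-- Ordered singular value decomposition of an invertible complex `2 × 2` matrix. -/
theorem svd_ordered514 (g : Matrix (Fin 2) (Fin 2) ℂ) (hg : g.det ≠ 0) :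
    ∃ (k₁ k₂ : Matrix (Fin 2) (Fin 2) ℂ) (a b : ℝ),
      k₁ * k₁ᴴ = 1 ∧ k₂ * k₂ᴴ = 1 ∧ 0 < b ∧ b ≤ a ∧ g = k₁ * dg514 a b * k₂ := by
  obtain ⟨k₁, k₂, d, h1, h2, hd, hgd0⟩ := svd555 g hg
  have hdd : Matrix.diagonal (fun i => ((d i : ℝ) : ℂ)) = dg514 (d 0) (d 1) :=
    diagonal_eq_dg514 d
  have hgd : g = k₁ * dg514 (d 0) (d 1) * k₂ := by
    rw [← hdd]
    exact hgd0
  rcases le_total (d 1) (d 0) with h | h
  · exact ⟨k₁, k₂, d 0, d 1, h1, h2, hd 1, h, hgd⟩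
  · refine ⟨k₁ * sw514, sw514 * k₂, d 1, d 0, unitary_mul514 h1 sw_mul_swH514,
      unitary_mul514 sw_mul_swH514 h2, hd 0, h, ?_⟩
    rw [hgd, ← sw_dg_sw514 (d 0) (d 1)]
    simp only [Matrix.mul_assoc]

theorem norm_det_unitary514 {k : Matrix (Fin 2) (Fin 2) ℂ} (h : k * kᴴ = 1) : ‖k.det‖ = 1 := by
  have h1 : k.det * star k.det = 1 := by
    rw [← Matrix.det_conjTranspose, ← Matrix.det_mul, h, Matrix.det_one]
  have h2 : ‖k.det‖ * ‖k.det‖ = 1 := by
    have := congrArg (fun z : ℂ => ‖z‖) h1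
    simpa using this
  have h3 : 0 ≤ ‖k.det‖ := norm_nonneg _
  nlinarith

theorem det_dg514 (a b : ℝ) : (dg514 a b).det = ((a * b : ℝ) : ℂ) := by
  simp [dg514, Matrix.det_fin_two]

theorem dgH514 (a b : ℝ) : (dg514 a b)ᴴ = dg514 a b := by
  ext i j
  fin_cases i <;> fin_cases j <;> simp [dg514, Matrix.conjTranspose_apply]

theorem dg_mul_dg514 (a b : ℝ) : dg514 a b * dg514 a b = dg514 (a * a) (b * b) := by
  ext i j
  fin_cases i <;> fin_cases j <;> simp [dg514, Matrix.mul_apply, Fin.sum_univ_two]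

theorem trace_dg514 (a b : ℝ) : (dg514 a b).trace = ((a + b : ℝ) : ℂ) := by
  simp [dg514, Matrix.trace_fin_two]

/-- `|det g| = a b`. -/
theorem norm_det_svd514 {g k₁ k₂ : Matrix (Fin 2) (Fin 2) ℂ} {a b : ℝ} (h1 : k₁ * k₁ᴴ = 1)
    (h2 : k₂ * k₂ᴴ = 1) (ha : 0 < a) (hb : 0 < b) (hg : g = k₁ * dg514 a b * k₂) :
    ‖g.det‖ = a * b := by
  rw [hg, Matrix.det_mul, Matrix.det_mul, norm_mul, norm_mul, norm_det_unitary514 h1,
    norm_det_unitary514 h2, det_dg514, Complex.norm_real, one_mul, mul_one,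
    Real.norm_of_nonneg (mul_pos ha hb).le]

/-- `tr(g* g) = a² + b²`. -/
theorem trace_svd514 {g k₁ k₂ : Matrix (Fin 2) (Fin 2) ℂ} {a b : ℝ} (h1 : k₁ * k₁ᴴ = 1)
    (h2 : k₂ * k₂ᴴ = 1) (hg : g = k₁ * dg514 a b * k₂) :
    (gᴴ * g).trace = ((a * a + b * b : ℝ) : ℂ) := by
  have h1' : k₁ᴴ * k₁ = 1 := mul_eq_one_comm.mp h1
  have e : gᴴ * g = k₂ᴴ * (dg514 (a * a) (b * b) * k₂) := by
    rw [hg, Matrix.conjTranspose_mul, Matrix.conjTranspose_mul, dgH514]
    calc k₂ᴴ * (dg514 a b * k₁ᴴ) * (k₁ * dg514 a b * k₂)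
        = k₂ᴴ * (dg514 a b * (k₁ᴴ * k₁) * dg514 a b * k₂) := by simp only [Matrix.mul_assoc]
      _ = k₂ᴴ * (dg514 (a * a) (b * b) * k₂) := by
          rw [h1', Matrix.mul_one, dg_mul_dg514]
  rw [e, Matrix.trace_mul_comm, Matrix.mul_assoc, h2, Matrix.mul_one, trace_dg514]

theorem gl_det_ne_zero514 (g : GL (Fin 2) ℂ) : (g : Matrix (Fin 2) (Fin 2) ℂ).det ≠ 0 :=
  (Matrix.isUnits_det_units g).ne_zero

theorem det_ne_zero_of_unitary514 {k : Matrix (Fin 2) (Fin 2) ℂ} (h : k * kᴴ = 1) :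
    k.det ≠ 0 := by
  intro h0
  have := norm_det_unitary514 h
  rw [h0, norm_zero] at this
  exact zero_ne_one this

theorem sclC_coe514 (r : ℝ) :
    ((sclC r : GL (Fin 2) ℂ) : Matrix (Fin 2) (Fin 2) ℂ) = dg514 (Real.exp r) (Real.exp r) := rfl

theorem atC_coe514 (d : ℝ) :
    ((atC d : GL (Fin 2) ℂ) : Matrix (Fin 2) (Fin 2) ℂ)
      = dg514 (Real.exp (d / 2)) (Real.exp (-(d / 2))) := rfl

theorem scl_comm514 (c : ℝ) (k : Matrix (Fin 2) (Fin 2) ℂ) :
    dg514 c c * k = k * dg514 c c := by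
  ext i j
  fin_cases i <;> fin_cases j <;>
    simp [dg514, Matrix.mul_apply, Fin.sum_univ_two, mul_comm]

theorem dg_mul_dg'514 (a b c d : ℝ) : dg514 a b * dg514 c d = dg514 (a * c) (b * d) := by
  ext i j
  fin_cases i <;> fin_cases j <;> simp [dg514, Matrix.mul_apply, Fin.sum_univ_two]

/-- **T6.23.08 `CartanCC`**: the Cartan decomposition of `GL₂(ℂ)` with the values of the
parameters. -/
theorem cartanCC514 : CartanCC := by
  intro g
  obtain ⟨k₁, k₂, a, b, h1, h2, hb, hba, hg⟩ :=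
    svd_ordered514 (g : Matrix (Fin 2) (Fin 2) ℂ) (gl_det_ne_zero514 g)
  have ha : 0 < a := lt_of_lt_of_le hb hba
  have hdet : ‖(g : Matrix (Fin 2) (Fin 2) ℂ).det‖ = a * b := norm_det_svd514 h1 h2 ha hb hg
  have htr := trace_svd514 h1 h2 hg
  have hab : 0 < a * b := mul_pos ha hb
  have hrho : rhoQ g = (a * a + b * b) / (2 * (a * b)) := by
    unfold rhoQ
    rw [htr, hdet, Complex.ofReal_re]
  -- the parameter `d = log (a / b)`
  have hq : 1 ≤ a / b := (one_le_div hb).mpr hba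
  have hd0 : 0 ≤ Real.log (a / b) := Real.log_nonneg hq
  have hcosh : Real.cosh (Real.log (a / b)) = rhoQ g := by
    rw [hrho, Real.cosh_eq, Real.exp_neg, Real.exp_log (div_pos ha hb)]
    field_simp
  have harc : Real.arcosh (rhoQ g) = Real.log (a / b) := by
    rw [← hcosh, Real.arcosh_cosh hd0]
  have hone : 1 ≤ rhoQ g := by
    rw [← hcosh]
    exact Real.one_le_cosh _
  refine ⟨hone, Matrix.GeneralLinearGroup.mkOfDetNeZero k₁ (det_ne_zero_of_unitary514 h1), h1,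
    Matrix.GeneralLinearGroup.mkOfDetNeZero k₂ (det_ne_zero_of_unitary514 h2), h2, ?_⟩
  apply Units.ext
  rw [harc, hdet]
  change (g : Matrix (Fin 2) (Fin 2) ℂ)
    = ((sclC (Real.log (a * b) / 2) : GL (Fin 2) ℂ) : Matrix (Fin 2) (Fin 2) ℂ) * k₁
      * ((atC (Real.log (a / b)) : GL (Fin 2) ℂ) : Matrix (Fin 2) (Fin 2) ℂ) * k₂
  rw [sclC_coe514, atC_coe514, scl_comm514, Matrix.mul_assoc k₁, dg_mul_dg'514, hg]
  have e1 : Real.exp (Real.log (a * b) / 2) * Real.exp (Real.log (a / b) / 2) = a := by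
    rw [← Real.exp_add, Real.log_mul ha.ne' hb.ne', Real.log_div ha.ne' hb.ne']
    have : (Real.log a + Real.log b) / 2 + (Real.log a - Real.log b) / 2 = Real.log a := by ring
    rw [this, Real.exp_log ha]
  have e2 : Real.exp (Real.log (a * b) / 2) * Real.exp (-(Real.log (a / b) / 2)) = b := by
    rw [← Real.exp_add, Real.log_mul ha.ne' hb.ne', Real.log_div ha.ne' hb.ne']
    have : (Real.log a + Real.log b) / 2 + -((Real.log a - Real.log b) / 2) = Real.log b := by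
      ring
    rw [this, Real.exp_log hb]
  rw [e1, e2]

end Fermat.Agent.LT.T6.H514
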